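/-
MLT (project S59) / stream L1 (helper3), Mazur's principle at `q = 2`, part 1: **(B1)+(B2) at the rigid levels
`9 ∣ K`** (the rigid levels prime to `2`), `p ≥ 5`.

`mltl1_redDiv49` is helper4's `ihb_redDiv` (`Lib/Ihara/B/Red/Main.lean`) with the hypothesis `4 ∣ K` replaced by
`4 ∣ K ∨ 9 ∣ K` (all the ingredients — `s33q_exists_setup_level`, `ihbe_eis`, `ihb_heckeOrd` — are stated for
both kinds of rigid levels; the proof is copied verbatim).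
-/
import Mathlib
import Fermat.Agent.Lib.Ihara.B.Red.Main

set_option autoImplicit false
set_option linter.unusedSectionVars false
set_option linter.unusedVariables false
set_option linter.style.haveILetI false
set_option synthInstance.maxHeartbeats 400000
set_option maxHeartbeats 1000000

open HahnSeries ModularCurve Fermat.Agent.T1 Fermat.Agent.T2 Fermat.Agent.T4 Fermat.Agent.TW
  Fermat.Agent.S05Lib Fermat.Agent.S24Lib AlgebraicCurve Fermat.Agent.Curve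
  Fermat.Agent.S33 Fermat.Agent.S33Q Fermat.Agent.Delta Fermat.Agent.Alpha Fermat.Agent.T3
  Fermat.Agent.Ihara

noncomputable section

namespace Fermat.Agent.MLT

local notation "Qb" => AlgebraicClosure ℚ
local notation "GQ" => (AlgebraicClosure ℚ ≃ₐ[ℚ] AlgebraicClosure ℚ)

attribute [local instance] t2i_dvr t2i_isAlgClosed t2i_charP t2i_fact
attribute [local instance 10000] dliAlgF dliAlgE
attribute [local instance] s33g_neZero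

section Main

variable (𝔓 : FFPlace) (K : ℕ) [NeZero K] (hK : ¬ 𝔓.p ∣ K)

/-- **(B1)+(B2)** at every rigid level `4 ∣ K` or `9 ∣ K`, `p ≥ 5` -/
theorem mltl1_redDiv49 (h49 : 4 ∣ K ∨ 9 ∣ K) (p : ℕ) (hp : p.Prime) (hp5 : 5 ≤ p) (hpq : p ≠ 𝔓.p) :
    IhbRedDiv 𝔓 K hK p hp.ne_zero := by
  intro Y hY hI heig s
  have hp0 : p ≠ 0 := hp.ne_zero
  obtain ⟨ℓ₀, hℓ₀, t, hℓ₀N, hℓ₀p, hT, hne⟩ := heig
  -- (1) descent to the inertia field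
  have hI' : ∀ σ ∈ 𝔓.I, ∃ u : (↥(modularFunctionFieldBar (K * 𝔓.p)))ˣ,
      tkrSig (K * 𝔓.p) σ Y = Y * u ^ p := by
    intro σ hσ
    have h1 := hI σ hσ
    rw [ihb_class_sig (K * 𝔓.p) hp0 σ Y hY] at h1
    exact ihb_pow_of_class_eq (K * 𝔓.p) hp0 Y _ hY _ h1.symm
  obtain ⟨s₁, zx, hzx⟩ := t4d_descend 𝔓 (K * 𝔓.p) hp0 Y hI'
  obtain ⟨hY₁, hcls⟩ := ihb_class_mul_pow hp0 Y s₁ hY
  set Y₁ : (↥(modularFunctionFieldBar (K * 𝔓.p)))ˣ := Y * s₁ ^ p with hY₁def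
  have hzx0 : zx ≠ 0 := by
    rintro rfl
    rw [map_zero] at hzx
    exact Y₁.ne_zero hzx.symm
  have hdiv : ∀ v : Place Qb ↥(modularFunctionFieldBar (K * 𝔓.p)),
      (p : ℤ) ∣ v.ord (tbPhiF 𝔓 (K * 𝔓.p) ⊤ zx) := by
    intro v
    rw [hzx]
    exact hY₁ v
  -- (2) the Eisenstein shape
  obtain ⟨n, su, hx, hxb⟩ := s33q_exists_setup_level 𝔓 K hK h49 (⊤ : Subgroup 𝔓.I)
  have hpe : (𝔓.p : ↥(tbFix 𝔓 (⊤ : Subgroup 𝔓.I))) =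
      (((1 : ↥(tbFixO 𝔓 (⊤ : Subgroup 𝔓.I))) : ↥(tbFixO 𝔓 (⊤ : Subgroup 𝔓.I))) :
          ↥(tbFix 𝔓 (⊤ : Subgroup 𝔓.I))) *
        ((((𝔓.p : ℕ) : ↥(tbFixO 𝔓 (⊤ : Subgroup 𝔓.I))) : ↥(tbFixO 𝔓 (⊤ : Subgroup 𝔓.I))) :
          ↥(tbFix 𝔓 (⊤ : Subgroup 𝔓.I))) ^ 1 := by
    simp
  set f : (↥(modularFunctionFieldBar (K * 𝔓.p)))ˣ :=
    dleVertU (K * 𝔓.p) 𝔓.p (Dvd.intro_left K rfl) with hfdef
  have hf : (f : ↥(modularFunctionFieldBar (K * 𝔓.p))) =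
      tbPhiF 𝔓 (K * 𝔓.p) ⊤ (dlxVertD 𝔓 ⊤ K) :=
    Subtype.ext ((coe_dleVertU (K * 𝔓.p) 𝔓.p (Dvd.intro_left K rfl)).trans
      (dlxVertD_phi 𝔓 ⊤ K).symm)
  obtain ⟨γ, hfin, hcusp⟩ := ihbe_eis 𝔓 ⊤ (t4cy_irreducible_p 𝔓) K hK h49 su hx hxb p
    isUnit_one hpe zx hzx0 hdiv Y₁ f hzx.symm hf
  -- (3) the Hecke relation for `Y₁`
  obtain ⟨t', ht'mod, hT'⟩ : ∃ t' : ℕ, ((t' : ℕ) : ℤ) = t % (p : ℤ) ∧
      heckeOperatorBar (K * 𝔓.p) ⟨ℓ₀, hℓ₀⟩ (alpfClass hp0 Y₁ hY₁) = t' • alpfClass hp0 Y₁ hY₁ := by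
    refine ⟨(t % (p : ℤ)).toNat, Int.toNat_of_nonneg (Int.emod_nonneg _ (by exact_mod_cast hp0)), ?_⟩
    rw [hcls, hT]
    exact dle_zsmul_eq_nsmul hp0 t _ (alpt_class_torsion hp0 Y hY)
  obtain ⟨u, hu⟩ := dle_hecke_rel (K * 𝔓.p) hℓ₀ hℓ₀N hp0 Y₁ hY₁ t' hT'
  have hTf : tkrHeckeUnits (K * 𝔓.p) ℓ₀ f = f ^ (ℓ₀ + 1) := by
    apply Units.ext
    rw [tkrHeckeUnits_coe, Units.val_pow_eq_pow_val]
    exact dle_vert_hecke_eq (K * 𝔓.p) 𝔓.p (Dvd.intro_left K rfl) _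
      (coe_dleVertU (K * 𝔓.p) 𝔓.p (Dvd.intro_left K rfl)) hℓ₀ hℓ₀N
  -- (4) the auxiliary function `y = Y₁ ^ 12 f ^ (-γ)`
  set y : (↥(modularFunctionFieldBar (K * 𝔓.p)))ˣ := Y₁ ^ 12 * f ^ (-γ) with hy
  have hys : ∀ s, DlsFin 𝔓 K s → (p : ℤ) ∣ ihbOrd 𝔓 K hK y s := by
    intro s hs
    have h1 := hfin s hs
    rw [hy, ihbOrd_mul, ihbOrd_pow, ihbOrd_zpow]
    have e : ((12 : ℕ) : ℤ) * ihbOrd 𝔓 K hK Y₁ s + -γ * ihbOrd 𝔓 K hK f s =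
        ihbOrd 𝔓 K hK Y₁ s * (12 * ((1 : ℕ) : ℤ)) - ihbOrd 𝔓 K hK f s * γ := by
      push_cast; ring
    rw [e]
    exact h1
  have hTy : tkrHeckeUnits (K * 𝔓.p) ℓ₀ y =
      (Y₁ ^ t' * u ^ p) ^ 12 * (f ^ (ℓ₀ + 1)) ^ (-γ) := by
    rw [hy, map_mul, map_pow, map_zpow, hu, hTf]
  have hE := fun s hs => ihb_heckeOrd 𝔓 K hK h49 p ℓ₀ hℓ₀ hℓ₀N y hys
    (tkrHeckeUnits (K * 𝔓.p) ℓ₀ y) (tkrHeckeUnits_coe _) s hs
  -- (5) conclusion for `Y₁`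
  have hpprime : Prime (p : ℤ) := Nat.prime_iff_prime_int.mp hp
  have hmain : ∀ s, (p : ℤ) ∣ ihbOrd 𝔓 K hK Y₁ s := by
    intro s
    by_cases hs : DlsFin 𝔓 K s
    · have h1 := hfin s hs
      have h2 := hE s hs
      rw [hTy, ihbOrd_mul, ihbOrd_pow, ihbOrd_zpow, ihbOrd_mul, ihbOrd_pow, ihbOrd_pow,
        ihbOrd_pow] at h2
      set oY := ihbOrd 𝔓 K hK Y₁ s with hoY
      set oF := ihbOrd 𝔓 K hK f s with hoF
      set oU := ihbOrd 𝔓 K hK u s with hoU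
      -- `p ∣ (t' - ℓ₀ - 1) γ oF`
      have h3 : (p : ℤ) ∣ ((t' : ℤ) - (ℓ₀ : ℤ) - 1) * (γ * oF) := by
        have e : ((t' : ℤ) - (ℓ₀ : ℤ) - 1) * (γ * oF) =
            (((12 : ℕ) : ℤ) * ((t' : ℤ) * oY + (p : ℤ) * oU) +
              -γ * (((ℓ₀ + 1 : ℕ) : ℤ) * oF)) -
            (t' : ℤ) * (oY * (12 * ((1 : ℕ) : ℤ)) - oF * γ) - (p : ℤ) * (12 * oU) := by
          push_cast; ring
        rw [e]
        exact dvd_sub (dvd_sub h2 (Dvd.dvd.mul_left h1 _)) (dvd_mul_right _ _)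
      have h4 : ¬ (p : ℤ) ∣ ((t' : ℤ) - (ℓ₀ : ℤ) - 1) := by
        intro hd
        apply hne
        have e : (ℓ₀ : ℤ) + 1 - t = -((t' : ℤ) - (ℓ₀ : ℤ) - 1) - (p : ℤ) * (t / (p : ℤ)) := by
          rw [ht'mod]
          have := Int.emod_add_mul_ediv t (p : ℤ)
          linarith
        rw [e]
        exact dvd_sub (Dvd.dvd.neg_right hd) (dvd_mul_right _ _)
      have h5 : (p : ℤ) ∣ γ * oF := (hpprime.dvd_or_dvd h3).resolve_left h4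
      have h6 : (p : ℤ) ∣ oY * 12 := by
        have e : oY * 12 = (oY * (12 * ((1 : ℕ) : ℤ)) - oF * γ) + γ * oF := by push_cast; ring
        rw [e]
        exact dvd_add h1 h5
      have h7 : ¬ (p : ℤ) ∣ 12 := by
        intro hd
        have h8 : p ∣ 4 * 3 := by exact_mod_cast hd
        rcases (Nat.Prime.dvd_mul hp).mp h8 with h9 | h9
        · have := Nat.le_of_dvd (by norm_num) h9
          omega
        · have := Nat.le_of_dvd (by norm_num) h9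
          omega
      exact (hpprime.dvd_or_dvd h6).resolve_right h7
    · exact hcusp s hs
  -- (6) back to `Y`
  have h1 := hmain s
  rw [hY₁def, ihbOrd_mul, ihbOrd_pow] at h1
  have h2 : ihbOrd 𝔓 K hK Y s =
      (ihbOrd 𝔓 K hK Y s + (p : ℤ) * ihbOrd 𝔓 K hK s₁ s) - (p : ℤ) * ihbOrd 𝔓 K hK s₁ s := by ring
  show (p : ℤ) ∣ ihbOrd 𝔓 K hK Y s
  rw [h2]
  exact dvd_sub h1 (dvd_mul_right _ _)

end Main

end Fermat.Agent.MLT
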