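/-
MLT (project S59) / stream L1 (helper3), Mazur's principle at `q = 2`, part 2: **the wiring**.

* `mltl1_mazur_gen` : Mazur's principle `M q ⇒ M` for a general `W` through ANY auxiliary level `M e`
  (`q ∤ M e`), from (B1)+(B2) at the level `M e` and (B3) for the cover `X₀(M e) → X₀(M)` (for the models with
  bad reduction at `q`; for `q ∤ Δ_W` the model is scaled by `q` and the congruence at `q` is recovered by
  lead's `mltr_congAt`);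
* `MltL1CmpNine p` : **open contract** = (B3) for the covers `X₀(9 M) → X₀(M)`, `M` odd, at the places over `2`;
* `mltl1_mazurTwo_of_cmp : 5 ≤ p → MltL1CmpNine p → MltL1MazurTwo p`
  ((B1)+(B2) at the levels `9 ∣ K`: `mltl1_redDiv49`).
-/
import Mathlib
import Fermat.Agent.Lib.MLT.L1.MazurAll
import Fermat.Agent.Lib.MLT.L1.Two.RedDiv9

set_option autoImplicit false
set_option linter.unusedSectionVars false
set_option linter.unusedVariables false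
set_option linter.style.haveILetI false
set_option synthInstance.maxHeartbeats 400000
set_option maxHeartbeats 1000000

open WeierstrassCurve WeierstrassCurve.Affine WeierstrassCurve.Affine.Point

namespace Fermat.Agent.MLT

open ModularCurve Fermat.Agent.T1 Fermat.Agent.T2 Fermat.Agent.TW Fermat.Agent.Delta
  Fermat.Agent.S33 Fermat.Agent.S05Lib AlgebraicCurve Fermat.Agent.Curve
  Fermat.Agent.T3 Fermat.Agent.Alpha Fermat.Agent.S58 Fermat.Agent.Ihara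

local notation "Qb" => AlgebraicClosure ℚ
local notation "GQ" => (AlgebraicClosure ℚ ≃ₐ[ℚ] AlgebraicClosure ℚ)

/-- **Mazur's principle through an auxiliary level `M e`, `q ∣ Δ_W`** -/
theorem mltl1_mazur_gen_bad (p : ℕ) (hp : p.Prime) (hp2 : p ≠ 2)
    (W : WeierstrassCurve ℤ) (hΔ : W.Δ ≠ 0) (hirr : W.ModRepIsIrreducible p)
    (M e q : ℕ) (hMpos : 0 < M) (hepos : 0 < e) (hq : q.Prime) (hqp : q ≠ p)
    (hqMe : ¬ q ∣ M * e)
    (h1 : ∀ (𝔓 : FFPlace) (hK : ¬ 𝔓.p ∣ M * e),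
      haveI : NeZero M := ⟨hMpos.ne'⟩
      haveI : NeZero e := ⟨hepos.ne'⟩
      𝔓.p = q → IhbRedDiv 𝔓 (M * e) hK p hp.ne_zero)
    (h3 : ∀ (𝔓 : FFPlace),
      haveI : NeZero M := ⟨hMpos.ne'⟩
      haveI : NeZero e := ⟨hepos.ne'⟩
      𝔓.p = q → MltL1Cmp 𝔓 M e p W)
    (hunr : MltL1Unram W p q) (hnC : ¬ (p ∣ q - 1 ∧ MltL1FrobScalar W p q))
    (hres : W.IsResiduallyModularOfLevel p (M * q)) :
    W.IsResiduallyModularOfLevel p M := by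
  by_contra hnot
  haveI : NeZero M := ⟨hMpos.ne'⟩
  haveI : NeZero e := ⟨hepos.ne'⟩
  have hpq : p ≠ q := fun h => hqp h.symm
  have hcore : ∀ (A : ValuationSubring Qb) (hA : A.LiesOverPrime q) (φ : GQ)
      (hφ : A.IsFrobeniusAt φ q),
      p ∣ q - 1 ∧ ∃ c : ℤ, ∀ x : Submodule.torsionBy ℤ
        ((W.map (Int.castRingHom ℚ)).toAffine⁄Qb).Point p, φ • x = c • x := by
    intro A hA φ hφ
    obtain ⟨𝔓, h𝔓P, h𝔓p⟩ : ∃ 𝔓 : FFPlace, 𝔓.P = A ∧ 𝔓.p = q := ⟨⟨A, q, hq, hA⟩, rfl, rfl⟩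
    subst h𝔓P
    subst h𝔓p
    exact mltl1_core 𝔓 M e hqMe p hp hp2 hpq W hΔ hirr (h1 𝔓 hqMe rfl) (h3 𝔓 rfl)
      ihb_toricFrob hunr hres hnot φ hφ
  obtain ⟨A, φ, hA, hφ⟩ := Fermat.Agent.Lib.Helper6.exists_frobenius q hq
  exact hnC ⟨(hcore A hA φ hφ).1, fun A' hA' φ' hφ' => (hcore A' hA' φ' hφ').2⟩

/-- **Mazur's principle through an auxiliary level `M e`** (general `W`, `p` odd) -/
theorem mltl1_mazur_gen (p : ℕ) (hp : p.Prime) (hp2 : p ≠ 2)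
    (W : WeierstrassCurve ℤ) (hΔ : W.Δ ≠ 0) (hirr : W.ModRepIsIrreducible p)
    (M e q : ℕ) (hMpos : 0 < M) (hepos : 0 < e) (hq : q.Prime) (hqp : q ≠ p)
    (hqMe : ¬ q ∣ M * e)
    (h1 : ∀ (𝔓 : FFPlace) (hK : ¬ 𝔓.p ∣ M * e),
      haveI : NeZero M := ⟨hMpos.ne'⟩
      haveI : NeZero e := ⟨hepos.ne'⟩
      𝔓.p = q → IhbRedDiv 𝔓 (M * e) hK p hp.ne_zero)
    (h3 : ∀ (𝔓 : FFPlace) (W' : WeierstrassCurve ℤ),
      haveI : NeZero M := ⟨hMpos.ne'⟩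
      haveI : NeZero e := ⟨hepos.ne'⟩
      𝔓.p = q → W'.Δ ≠ 0 → (q : ℤ) ∣ W'.Δ → W'.ModRepIsIrreducible p → MltL1Cmp 𝔓 M e p W')
    (hunr : MltL1Unram W p q) (hnC : ¬ (p ∣ q - 1 ∧ MltL1FrobScalar W p q))
    (hres : W.IsResiduallyModularOfLevel p (M * q)) :
    W.IsResiduallyModularOfLevel p M := by
  have hqM : ¬ q ∣ M := fun h => hqMe (h.mul_right e)
  by_cases hqΔ : (q : ℤ) ∣ W.Δ
  · exact mltl1_mazur_gen_bad p hp hp2 W hΔ hirr M e q hMpos hepos hq hqp hqMe h1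
      (fun 𝔓 h𝔓 => h3 𝔓 W h𝔓 hΔ hqΔ hirr) hunr hnC hres
  -- `q` is a prime of good reduction: pass to the scaled model
  have hq0 : q ≠ 0 := hq.ne_zero
  have hlow := mltl1_mazur_gen_bad p hp hp2 (mltl1Scale W q) (mltl1Scale_Δ_ne_zero W hq0 hΔ)
    (mltl1Scale_irr W hq0 p hirr) M e q hMpos hepos hq hqp hqMe h1
    (fun 𝔓 h𝔓 => h3 𝔓 (mltl1Scale W q) h𝔓 (mltl1Scale_Δ_ne_zero W hq0 hΔ) (mltl1Scale_dvd_Δ W q)
      (mltl1Scale_irr W hq0 p hirr))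
    (mltl1Scale_unram W hq0 p q hunr)
    (fun h => hnC ⟨h.1, mltl1Scale_frobScalar W hq0 p q h.2⟩)
    (mltl1Scale_resid W hΔ hq0 p (M * q) hres)
  obtain ⟨f, 𝔪, hf, hmax, hpm, hcong⟩ := hlow
  have hcong' : ∀ ℓ : ℕ, ℓ.Prime → W.IsGoodPrimeFor ℓ → ¬ ℓ ∣ M → ℓ ≠ p → ℓ ≠ q →
      ∃ a : integralClosure ℤ ℂ, (a : ℂ) = ModularFormClass.qCoeff f ℓ ∧
        a - ((W.apOfModel ℓ : ℤ) : integralClosure ℤ ℂ) ∈ 𝔪 := by
    intro ℓ hℓ hgood hℓM hℓp hℓq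
    have hg' := mltl1Scale_good_of W hq hℓ hgood hℓq
    have h := hcong ℓ hℓ hg' hℓM hℓp
    rwa [mltl1Scale_ap W hΔ hq0 hℓ hg'] at h
  refine ⟨f, 𝔪, hf, hmax, hpm, fun ℓ hℓ hgood hℓM hℓp => ?_⟩
  by_cases hℓq : ℓ = q
  · subst hℓq
    exact mltl1_congAt p hp W hΔ hirr M ℓ hMpos hq hqp hqM hqΔ f 𝔪 hf hmax hpm hcong'
  · exact hcong' ℓ hℓ hgood hℓM hℓp hℓq

/-- **open contract: (B3) for the covers `X₀(9 M) → X₀(M)`, `M` odd, at the places over `2`** -/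
def MltL1CmpNine (p : ℕ) : Prop :=
  ∀ (𝔓 : FFPlace) (M : ℕ) [NeZero M], 𝔓.p = 2 → ¬ 2 ∣ M →
    ∀ W : WeierstrassCurve ℤ, W.Δ ≠ 0 → ((2 : ℕ) : ℤ) ∣ W.Δ → W.ModRepIsIrreducible p →
      MltL1Cmp 𝔓 M 9 p W

/-- **Mazur's principle at `q = 2`, `p ≥ 5`, from (B3) for the covers `X₀(9 M) → X₀(M)`** -/
theorem mltl1_mazurTwo_of_cmp (p : ℕ) [Fact p.Prime] (hp5 : 5 ≤ p) (h3 : MltL1CmpNine p) :
    MltL1MazurTwo p := by
  have hp : p.Prime := Fact.out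
  have hp2 : p ≠ 2 := by omega
  intro W hΔ hW hirr M hMpos h2M hMsq hunr hres
  have h2Me : ¬ 2 ∣ M * 9 := by
    intro h
    rcases (Nat.Prime.dvd_mul Nat.prime_two).mp h with h' | h'
    · exact h2M h'
    · omega
  refine mltl1_mazur_gen p hp hp2 W hΔ hirr M 9 2 hMpos (by norm_num) Nat.prime_two (by omega) h2Me
    ?_ ?_ hunr ?_ hres
  · intro 𝔓 hK h𝔓
    haveI : NeZero M := ⟨hMpos.ne'⟩
    exact mltl1_redDiv49 𝔓 (M * 9) hK (Or.inr (Dvd.intro_left M rfl)) p hp hp5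
      (fun h => by rw [h𝔓] at h; omega)
  · intro 𝔓 W' h𝔓 hΔ' h2Δ' hirr'
    haveI : NeZero M := ⟨hMpos.ne'⟩
    exact h3 𝔓 M h𝔓 h2M W' hΔ' h2Δ' hirr'
  · rintro ⟨h, -⟩
    have h1 : p ∣ 1 := h
    have := Nat.le_of_dvd one_pos h1
    omega

end Fermat.Agent.MLT
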